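/-
Programme MAZ (S15), brick T1B-U7 J-ALL (helper39): **the J-BRIDGE on ALL of `J₀(N)(ℚ̄)`**.

`K ⊂ ℚ̄` a number field, inertial at `p` (`hK`), `W = Wb p K`, `c0 : TwoChart W B0 B1 B01` any two-chart
datum with a family of chart isomorphisms `Fam : Bridge39.ChartIsoFamilyN (padicPlace p) N K c0`.

* `jDiv Fam L hle X : Atop p K c0` : the class of `O(X)` over `ℚ̄_p` (through the finite normal level
  `L ⊇ K`), for a divisor `X` of `ℚ̄·F_N`; `jDiv_add`, `jDiv_mono`, `jDiv_eq_of_mk_eq`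
  (independence of the level and of the divisor in its class), `jDiv_principal_of_eq` (injectivity,
  from EXT-INJ-FIELD), `smul_jDiv` (inertia);
* `Rep K y` : a representative of `y : JZero N` (a finite normal level `L ⊇ K`, a divisor of degree
  `0` of class `y` with `L`-rational support); `nonempty_rep`;
* **`jAll Fam : JZero N →+ Atop p K c0`**, `jAll_eq` (`jAll y = jDiv L X` for EVERY representative),
  **`jAll_injective`**, **`jAll_res`** (`jAll (res τ • y) = τ • jAll y` for `τ ∈ I_p`),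
  `toMul_jAll_mem_picPt`.
-/
import Mathlib
import Fermat.Agent.T1B.Bridge39.Final
import Fermat.Agent.T1B.Bridge54.IpRes
import Fermat.Agent.T1B.Bridge43.ExtInjField
import Fermat.Agent.T1.Dict22.RatLevel

set_option autoImplicit false
set_option linter.unusedSectionVars false
set_option linter.style.haveILetI false
set_option synthInstance.maxHeartbeats 400000
set_option maxHeartbeats 1000000

open HahnSeries AlgebraicCurve ModularCurve IntermediateField TensorProduct
open Fermat.Agent.TW.B5.Iface Fermat.Agent.RED.Interface4 Fermat.Agent.T1.HubInst98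
open Fermat.Agent.Jac Fermat.Agent.T1.RedIface75 Fermat.Agent.T1.PtLine75
open Fermat.Agent.T1.Dict59 Fermat.Agent.T1.Dict67 Fermat.Agent.T1.CentresClass47
open Fermat.Agent.T1B.Local66.LocalBase Fermat.Agent.T1B.Local66.Union
open Fermat.Agent.T1B.Plumb66.Inertia (Ip mem_Ip)
open Fermat.Agent.T1B.Bridge54.IpInst Fermat.Agent.T1B.Bridge54.IpRes
open Fermat.Agent.T1B.Bridge39
open Fermat.Agent.ES.P36.InertField27 (InertFixed)
open Fermat.Agent.Jac.BaseChange75
open scoped Fermat.Agent.Jac.BaseChange75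

noncomputable section

namespace Fermat.Agent.MAZ.JAll39

variable {p : ℕ} [Fact p.Prime] {K : IntermediateField ℚ Qbar} {N : ℕ} [NeZero N]
  {B0 B1 B01 : Type} [CommRing B0] [CommRing B1] [CommRing B01]
  [Algebra (Wb p K) B0] [Algebra (Wb p K) B1] [Algebra (Wb p K) B01] [Algebra B0 B01]
  [Algebra B1 B01] [IsScalarTower (Wb p K) B0 B01] [IsScalarTower (Wb p K) B1 B01]
  {c0 : TwoChart (Wb p K) B0 B1 B01}
  (Fam : ChartIsoFamilyN (padicPlace p) N K c0)

/-! ### The class of `O(X)` over `ℚ̄_p` -/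

/-- **The class of `O(X)` in `A = Pic X_{ℚ̄_p}`**, through the level `L`. -/
def jDiv (L : IntermediateField ℚ Qbar) [FiniteDimensional ℚ L] [Normal ℚ L] (hle : K ≤ L)
    (X : Divisor Qbar (Fbar N)) : Atop p K c0 :=
  Additive.ofMul (bcL c0 hle (Fam.dDiv L hle X))

section Level

variable (L : IntermediateField ℚ Qbar) [FiniteDimensional ℚ L] [Normal ℚ L] (hle : K ≤ L)

theorem jDiv_add (X X' : Divisor Qbar (Fbar N)) :
    jDiv Fam L hle (X + X') = jDiv Fam L hle X + jDiv Fam L hle X' := by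
  unfold jDiv
  rw [Fam.dDiv_add, map_mul]
  rfl

theorem toMul_jDiv_mem_picPt (X : Divisor Qbar (Fbar N)) :
    letI := algWKbar p K
    Additive.toMul (jDiv Fam L hle X) ∈ (pointClasses c0).PicPt (Kbar p) :=
  bcL_mem_picPt c0 hle (Fam.dDiv_mem_picPt L hle X)

/-- Linearly equivalent divisors with `L`-rational support have the same class. -/
theorem jDiv_congr (X X' : Divisor Qbar (Fbar N)) (hX : ∀ w, X w ≠ 0 → IsRatPlace L w)
    (hX' : ∀ w, X' w ≠ 0 → IsRatPlace L w)
    (h : ∃ g : Fbar N, g ≠ 0 ∧ ∀ w : Place Qbar (Fbar N), X w - X' w = w.ord g) :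
    jDiv Fam L hle X = jDiv Fam L hle X' := by
  unfold jDiv
  rw [(Fam.dDiv_eq_iff L hle X X' hX hX').2 h]

/-- **Injectivity at one level** (EXT-INJ-FIELD). -/
theorem jDiv_principal_of_eq (hnt : letI := algWKbar p K; Nontrivial (Kbar p ⊗[Wb p K] B0))
    (hH0 : letI := algWKbar p K
      Fermat.Agent.T1.Red68.H0Const (c0.baseChange (Kbar p)))
    (X X' : Divisor Qbar (Fbar N)) (hX : ∀ w, X w ≠ 0 → IsRatPlace L w)
    (hX' : ∀ w, X' w ≠ 0 → IsRatPlace L w) (h : jDiv Fam L hle X = jDiv Fam L hle X') :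
    ∃ g : Fbar N, g ≠ 0 ∧ ∀ w : Place Qbar (Fbar N), X w - X' w = w.ord g := by
  rw [← Fam.dDiv_eq_iff L hle X X' hX hX']
  have h1 : bcL c0 hle (Fam.dDiv L hle X) = bcL c0 hle (Fam.dDiv L hle X') :=
    Additive.ofMul.injective h
  letI := algAKL (padicPlace p) hle
  letI := algWKbar p K
  letI := algLKbar p L
  haveI := tower_W_L_Kbar (p := p) hle
  haveI := hnt
  exact Fermat.Agent.T1B.Bridge43.picMap_injective_of_field c0 ↥L (Kbar p) hH0 h1

/-- **Inertia**: `τ • [O(X)] = [O(res τ • X)]`. -/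
theorem smul_jDiv (hK : InertFixed (padicPlace p) K) (τ : ↥(Ip p)) (X : Divisor Qbar (Fbar N)) :
    letI := actTop c0 hK
    τ • jDiv Fam L hle X =
      jDiv Fam L hle (gal N (localGaloisToGlobal p (τ : Gp p)) • X) := by
  letI := algAKL (padicPlace p) hle
  unfold jDiv
  rw [actTop_smul_ofMul,
    ← bcL_mapSemi c0 hK hle τ (chartAutRefl c0) rfl rfl rfl rfl
      ((resL L (localGaloisToGlobal p (τ : Gp p)) : ↥L ≃ₐ[ℚ] ↥L) : ↥L →+* ↥L) (fun _ => rfl)
      (resL_semi (padicPlace p) hle (localGaloisToGlobal p (τ : Gp p)) (res_fixes hK τ))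
      (Fam.dDiv L hle X),
    Fam.dDiv_galois L hle (localGaloisToGlobal p (τ : Gp p)) (res_fixes hK τ) X]

end Level

/-- Enlarging the level does not change the class. -/
theorem jDiv_mono (L₁ L : IntermediateField ℚ Qbar) [FiniteDimensional ℚ L₁]
    [FiniteDimensional ℚ L] [Normal ℚ L₁] [Normal ℚ L] (hle₁ : K ≤ L₁) (hL : L₁ ≤ L)
    (X : Divisor Qbar (Fbar N)) (hX : ∀ w, X w ≠ 0 → IsRatPlace L₁ w) :
    jDiv Fam L (hle₁.trans hL) X = jDiv Fam L₁ hle₁ X := by
  unfold jDiv
  rw [← Fam.dDiv_tower L₁ L hle₁ hL X hX]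
  exact congrArg Additive.ofMul (bcL_map c0 hle₁ hL (Fam.dDiv L₁ hle₁ X))

/-- **Independence of all choices.** -/
theorem jDiv_eq_of_mk_eq (L L' : IntermediateField ℚ Qbar) [FiniteDimensional ℚ L]
    [FiniteDimensional ℚ L'] [Normal ℚ L] [Normal ℚ L'] (hle : K ≤ L) (hle' : K ≤ L')
    (X X' : Divisor.degZero (K := Qbar) (F := Fbar N))
    (hX : ∀ w, (X : Divisor Qbar (Fbar N)) w ≠ 0 → IsRatPlace L w)
    (hX' : ∀ w, (X' : Divisor Qbar (Fbar N)) w ≠ 0 → IsRatPlace L' w)
    (h : Pic0.mk X = Pic0.mk X') :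
    jDiv Fam L hle (X : Divisor Qbar (Fbar N)) = jDiv Fam L' hle' (X' : Divisor Qbar (Fbar N)) := by
  haveI : FiniteDimensional ℚ ↥(L ⊔ L') := IntermediateField.finiteDimensional_sup L L'
  haveI : Normal ℚ ↥(L ⊔ L') := normal_sup' L L'
  rw [← jDiv_mono Fam L (L ⊔ L') hle le_sup_left _ hX,
    ← jDiv_mono Fam L' (L ⊔ L') hle' le_sup_right _ hX']
  exact jDiv_congr Fam (L ⊔ L') _ _ _
    (fun w hw => Fermat.Agent.T1.Dict22.TorsSection.isRatPlace_mono le_sup_left (hX w hw))
    (fun w hw => Fermat.Agent.T1.Dict22.TorsSection.isRatPlace_mono le_sup_right (hX' w hw))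
    ((pic0_mk_eq_iff X X').1 h)

/-! ### Representatives -/

/-- A representative of `y : JZero N`: a finite normal level and a divisor of degree `0` of class
`y` with rational support at that level. -/
structure Rep (K : IntermediateField ℚ Qbar) {N : ℕ} [NeZero N] (y : JZero N) where
  L : IntermediateField ℚ Qbar
  fin : FiniteDimensional ℚ L
  nor : Normal ℚ L
  le : K ≤ L
  D : Divisor.degZero (K := Qbar) (F := Fbar N)
  mk_D : Pic0.mk D = y
  rat : ∀ w, (D : Divisor Qbar (Fbar N)) w ≠ 0 → IsRatPlace L w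

attribute [instance] Rep.fin Rep.nor

theorem nonempty_rep [FiniteDimensional ℚ K] (y : JZero N) : Nonempty (Rep K y) := by
  obtain ⟨D, hD⟩ := Pic0.mk_surjective y
  obtain ⟨L, hle, hfin, hnor, hrat⟩ :=
    Fermat.Agent.T1.Dict22.RatLevel.ratLevel N K (D : Divisor Qbar (Fbar N)).support
  exact ⟨{ L := L, fin := hfin, nor := hnor, le := hle, D := D, mk_D := hD
           rat := fun w hw => hrat w (Finsupp.mem_support_iff.2 hw) }⟩

/-- The value of the bridge computed with a representative. -/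
def jOf {y : JZero N} (R : Rep K y) : Atop p K c0 :=
  jDiv Fam R.L R.le (R.D : Divisor Qbar (Fbar N))

theorem jOf_eq {y y' : JZero N} (R : Rep K y) (R' : Rep K y') (h : y = y') :
    jOf Fam R = jOf Fam R' :=
  jDiv_eq_of_mk_eq Fam R.L R'.L R.le R'.le R.D R'.D R.rat R'.rat
    (by rw [R.mk_D, R'.mk_D, h])

/-- The sum of two representatives. -/
def Rep.add {y y' : JZero N} (R : Rep K y) (R' : Rep K y') : Rep K (y + y') where
  L := R.L ⊔ R'.L
  fin := IntermediateField.finiteDimensional_sup R.L R'.L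
  nor := normal_sup' R.L R'.L
  le := R.le.trans le_sup_left
  D := R.D + R'.D
  mk_D := by rw [Pic0.mk_add, R.mk_D, R'.mk_D]
  rat := fun w hw => by
    rw [AddSubgroup.coe_add, Finsupp.add_apply] at hw
    by_cases h : (R.D : Divisor Qbar (Fbar N)) w = 0
    · apply Fermat.Agent.T1.Dict22.TorsSection.isRatPlace_mono le_sup_right (R'.rat w _)
      intro h'
      apply hw
      rw [h, h', add_zero]
    · exact Fermat.Agent.T1.Dict22.TorsSection.isRatPlace_mono le_sup_left (R.rat w h)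

/-- The Galois translate of a representative. -/
def Rep.smul {y : JZero N} (R : Rep K y) (σ : GQ) : Rep K (σ • y) where
  L := R.L
  fin := R.fin
  nor := R.nor
  le := R.le
  D := SemilinearAut.degZeroSMulHom (gal N σ) R.D
  mk_D := (SemilinearAut.pic0_smul_mk (gal N σ) R.D).symm.trans (congrArg (σ • ·) R.mk_D)
  rat := fun w hw => by
    rw [SemilinearAut.coe_degZeroSMulHom, SemilinearAut.divisor_smul_apply] at hw
    have h1 := Fermat.Agent.T1.Dict22.RatValue.isRatPlace_smul N R.L σ _ (R.rat _ hw)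
    rwa [smul_inv_smul] at h1

theorem jOf_add {y y' : JZero N} (R : Rep K y) (R' : Rep K y') :
    jOf Fam (R.add R') = jOf Fam R + jOf Fam R' := by
  haveI : FiniteDimensional ℚ ↥(R.L ⊔ R'.L) := IntermediateField.finiteDimensional_sup R.L R'.L
  haveI : Normal ℚ ↥(R.L ⊔ R'.L) := normal_sup' R.L R'.L
  have h1 : jOf Fam (R.add R') =
      jDiv Fam (R.L ⊔ R'.L) (R.le.trans le_sup_left)
        ((R.D : Divisor Qbar (Fbar N)) + (R'.D : Divisor Qbar (Fbar N))) := rfl
  rw [h1, jDiv_add]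
  have h2 := jDiv_mono Fam R.L (R.L ⊔ R'.L) R.le le_sup_left _ R.rat
  have h3 := jDiv_mono Fam R'.L (R.L ⊔ R'.L) R'.le le_sup_right _ R'.rat
  rw [h2, h3]
  rfl

theorem jOf_smul (hK : InertFixed (padicPlace p) K) (τ : ↥(Ip p)) {y : JZero N} (R : Rep K y) :
    letI := actTop c0 hK
    jOf Fam (R.smul (localGaloisToGlobal p (τ : Gp p))) = τ • jOf Fam R := by
  letI := actTop c0 hK
  exact (smul_jDiv Fam R.L R.le hK τ (R.D : Divisor Qbar (Fbar N))).symm

/-! ### The global bridge -/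

variable [FiniteDimensional ℚ K]

/-- A chosen representative. -/
def rep (K : IntermediateField ℚ Qbar) [FiniteDimensional ℚ K] {N : ℕ} [NeZero N] (y : JZero N) :
    Rep K y :=
  Classical.choice (nonempty_rep y)

/-- **The J-BRIDGE on all of `J₀(N)(ℚ̄)`.** -/
def jAll : JZero N →+ Atop p K c0 :=
  AddMonoidHom.mk' (fun y => jOf Fam (rep K y)) (fun y y' => by
    rw [jOf_eq Fam (rep K (y + y')) ((rep K y).add (rep K y')) rfl, jOf_add])

/-- `jAll y` may be computed with ANY representative. -/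
theorem jAll_eq_jOf {y : JZero N} (R : Rep K y) : jAll Fam y = jOf Fam R :=
  jOf_eq Fam (rep K y) R rfl

/-- `jAll` of the class of a divisor of degree `0` with `L`-rational support. -/
theorem jAll_mk (L : IntermediateField ℚ Qbar) [hfin : FiniteDimensional ℚ L] [hnor : Normal ℚ L]
    (hle : K ≤ L) (X : Divisor.degZero (K := Qbar) (F := Fbar N))
    (hX : ∀ w, (X : Divisor Qbar (Fbar N)) w ≠ 0 → IsRatPlace L w) :
    jAll Fam (Pic0.mk X) = jDiv Fam L hle (X : Divisor Qbar (Fbar N)) :=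
  jAll_eq_jOf Fam { L := L, fin := hfin, nor := hnor, le := hle, D := X, mk_D := rfl, rat := hX }

/-- **`jAll` is injective** (EXT-INJ-FIELD + the dictionary). -/
theorem jAll_injective (hnt : letI := algWKbar p K; Nontrivial (Kbar p ⊗[Wb p K] B0))
    (hH0 : letI := algWKbar p K
      Fermat.Agent.T1.Red68.H0Const (c0.baseChange (Kbar p))) :
    Function.Injective (jAll Fam : JZero N → Atop p K c0) := by
  intro y y' h
  set R := rep K y with hR
  set R' := rep K y' with hR'
  haveI : FiniteDimensional ℚ ↥(R.L ⊔ R'.L) := IntermediateField.finiteDimensional_sup R.L R'.L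
  haveI : Normal ℚ ↥(R.L ⊔ R'.L) := normal_sup' R.L R'.L
  have h1 : jDiv Fam R.L R.le (R.D : Divisor Qbar (Fbar N)) =
      jDiv Fam R'.L R'.le (R'.D : Divisor Qbar (Fbar N)) := h
  rw [← jDiv_mono Fam R.L (R.L ⊔ R'.L) R.le le_sup_left _ R.rat,
    ← jDiv_mono Fam R'.L (R.L ⊔ R'.L) R'.le le_sup_right _ R'.rat] at h1
  have h2 := jDiv_principal_of_eq Fam (R.L ⊔ R'.L) (R.le.trans le_sup_left) hnt hH0 _ _
    (fun w hw => Fermat.Agent.T1.Dict22.TorsSection.isRatPlace_mono le_sup_left (R.rat w hw))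
    (fun w hw => Fermat.Agent.T1.Dict22.TorsSection.isRatPlace_mono le_sup_right (R'.rat w hw)) h1
  have h3 := (pic0_mk_eq_iff R.D R'.D).2 h2
  rw [R.mk_D, R'.mk_D] at h3
  exact h3

/-- **`jAll` is equivariant for the inertia group** (acting on `J₀(N)(ℚ̄)` through
`localGaloisToGlobal p`). -/
theorem jAll_res (hK : InertFixed (padicPlace p) K) (τ : ↥(Ip p)) (y : JZero N) :
    letI := actTop c0 hK
    jAll Fam (localGaloisToGlobal p (τ : Gp p) • y) = τ • jAll Fam y := by
  letI := actTop c0 hK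
  rw [jAll_eq_jOf Fam ((rep K y).smul (localGaloisToGlobal p (τ : Gp p))), jOf_smul Fam hK τ]
  rfl

/-- The values of `jAll` are generated by classes of `ℚ̄_p`-points. -/
theorem toMul_jAll_mem_picPt (y : JZero N) :
    letI := algWKbar p K
    Additive.toMul (jAll Fam y) ∈ (pointClasses c0).PicPt (Kbar p) :=
  toMul_jDiv_mem_picPt Fam (rep K y).L (rep K y).le _

end Fermat.Agent.MAZ.JAll39
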