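/-
Programme MAZ (S15), brick T1B-U7 J-ALL (helper39): the values of `jAll` lie in `Objects.PtTop c0`
(the classes of `ℚ̄_p`-points defined at a finite level).
-/
import Mathlib
import Fermat.Agent.MAZ.JAll39.Main
import Fermat.Agent.T1B.Local66.Objects

set_option autoImplicit false
set_option linter.unusedSectionVars false
set_option linter.style.haveILetI false
set_option synthInstance.maxHeartbeats 400000
set_option maxHeartbeats 1000000

open HahnSeries AlgebraicCurve ModularCurve IntermediateField TensorProduct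
open Fermat.Agent.TW.B5.Iface Fermat.Agent.RED.Interface4 Fermat.Agent.T1.HubInst98
open Fermat.Agent.Jac Fermat.Agent.T1.RedIface75 Fermat.Agent.T1.PtLine75 Fermat.Agent.T1.Red11
open Fermat.Agent.T1.Dict59 Fermat.Agent.T1.Dict67
open Fermat.Agent.T1B.Local66.LocalBase Fermat.Agent.T1B.Local66.Union
open Fermat.Agent.T1B.Local66.Objects
open Fermat.Agent.T1B.Bridge54.IpInst Fermat.Agent.T1B.Bridge54.IpRes
open Fermat.Agent.T1B.Bridge39
open Fermat.Agent.T1B.Plumb66.Inertia (Ip mem_Ip)
open Fermat.Agent.ES.P36.InertField27 (InertFixed)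
open Fermat.Agent.Jac.BaseChange75
open scoped Fermat.Agent.Jac.BaseChange75

noncomputable section

namespace Fermat.Agent.MAZ.JAll39

variable {p : ℕ} [Fact p.Prime] {K : IntermediateField ℚ Qbar} {N : ℕ} [NeZero N]
  {B0 B1 B01 : Type} [CommRing B0] [CommRing B1] [CommRing B01]
  [Algebra (Wb p K) B0] [Algebra (Wb p K) B1] [Algebra (Wb p K) B01] [Algebra B0 B01]
  [Algebra B1 B01] [IsScalarTower (Wb p K) B0 B01] [IsScalarTower (Wb p K) B1 B01]
  {c0 : TwoChart (Wb p K) B0 B1 B01}
  (Fam : ChartIsoFamilyN (padicPlace p) N K c0)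

/-- `ℚ_p(ι L)` as an `L`-algebra. -/
abbrev algLE (E : NLevel p K) : Algebra ↥E.L ↥E.E := (toE E.levL).toAlgebra

theorem tower_W_L_E (E : NLevel p K) :
    letI := algAKL (padicPlace p) E.leL
    letI := algWE E.lev
    letI := algLE E
    IsScalarTower (Wb p K) ↥E.L ↥E.E := by
  letI := algAKL (padicPlace p) E.leL
  letI := algWE E.lev
  letI := algLE E
  exact IsScalarTower.of_algebraMap_eq fun _ => rfl

theorem tower_L_E_Kbar (E : NLevel p K) :
    letI := algLE E
    letI := algEKbar E.E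
    letI := algLKbar p E.L
    IsScalarTower ↥E.L ↥E.E (Kbar p) := by
  letI := algLE E
  letI := algEKbar E.E
  letI := algLKbar p E.L
  exact IsScalarTower.of_algebraMap_eq fun _ => rfl

/-- `Pic X_L → Pic X_{E_L}`. -/
def bcLE39 (E : NLevel p K) : PicL c0 E.leL →* PicE c0 E :=
  letI := algAKL (padicPlace p) E.leL
  letI := algWE E.lev
  letI := algLE E
  haveI := tower_W_L_E E
  PicX.map c0 ↥E.L ↥E.E

theorem bcE_bcLE39 (E : NLevel p K) (x : PicL c0 E.leL) :
    bcE c0 E (bcLE39 E x) = bcL c0 E.leL x := by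
  letI := algAKL (padicPlace p) E.leL
  letI := algWE E.lev
  letI := algWKbar p K
  letI := algLE E
  letI := algEKbar E.E
  letI := algLKbar p E.L
  haveI := tower_W_L_E E
  haveI := tower_W_E_Kbar E.lev
  haveI := tower_W_L_Kbar (p := p) E.leL
  haveI := tower_L_E_Kbar E
  exact PicX.map_comp c0 ↥E.L ↥E.E (Kbar p) x

theorem bcLE39_mem_PtFam (E : NLevel p K) {x : PicL c0 E.leL}
    (hx : letI := algAKL (padicPlace p) E.leL; x ∈ (pointClasses c0).PicPt ↥E.L) :
    bcLE39 E x ∈ PtFam c0 E := by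
  letI := algAKL (padicPlace p) E.leL
  letI := algWE E.lev
  letI := algLE E
  haveI := tower_W_L_E E
  exact (pointClasses c0).map_mem ↥E.L ↥E.E x hx

variable [Nonempty (NLevel p K)]

/-- The class of `O(X)` over `ℚ̄_p` is defined at the finite level `ℚ_p(ι L)`. -/
theorem jDiv_mem_PtTop (L : IntermediateField ℚ Qbar) [FiniteDimensional ℚ L] [Normal ℚ L]
    (hle : K ≤ L) (X : Divisor Qbar (Fbar N)) : jDiv Fam L hle X ∈ PtTop c0 := by
  refine ⟨NLevel.ofField L hle, bcLE39 (NLevel.ofField L hle) (Fam.dDiv L hle X),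
    bcLE39_mem_PtFam (NLevel.ofField L hle) (Fam.dDiv_mem_picPt L hle X), ?_⟩
  exact congrArg Additive.ofMul (bcE_bcLE39 (NLevel.ofField L hle) (Fam.dDiv L hle X))

/-- **`j_Pt`**: the values of `jAll` lie in `PtTop c0`. -/
theorem jAll_mem_PtTop [FiniteDimensional ℚ K] (y : JZero N) : jAll Fam y ∈ PtTop c0 :=
  jDiv_mem_PtTop Fam (rep K y).L (rep K y).le _

include Fam in
/-- **J-ALL, packaged** with exactly the binders of `MAZ/K3Asm7` (`k3_local_ext`, `leafK3_of_local`,
`leafK3_of_local_pt`): the bridge `j`, injective, equivariant for the inertia group, with values in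
`PtTop c0`. -/
theorem exists_jAll [FiniteDimensional ℚ K] (hK : InertFixed (padicPlace p) K)
    (hnt : letI := algWKbar p K; Nontrivial (Kbar p ⊗[Wb p K] B0))
    (hH0 : letI := algWKbar p K
      Fermat.Agent.T1.Red68.H0Const (c0.baseChange (Kbar p))) :
    ∃ j : JZero N →+ Atop p K c0, Function.Injective j ∧
      (letI := actTop c0 hK
        ∀ (τ : ↥(Ip p)) (x : JZero N), j (localGaloisToGlobal p (τ : Gp p) • x) = τ • j x) ∧
      ∀ x, j x ∈ PtTop c0 :=
  ⟨jAll Fam, jAll_injective Fam hnt hH0, fun τ x => jAll_res Fam hK τ x, jAll_mem_PtTop Fam⟩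

end Fermat.Agent.MAZ.JAll39
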