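/-
Programme MAZ (S15) / S33, brick J-ALL (helper39): on the `p`-torsion the global bridge
`JAll39.jAll` IS helper54's `Bridge54.JTop.jTop` (for every torsion section `S`).
-/
import Mathlib
import Fermat.Agent.MAZ.JAll39.Main
import Fermat.Agent.T1B.Bridge54.JTop

set_option autoImplicit false
set_option linter.unusedSectionVars false
set_option linter.style.haveILetI false
set_option synthInstance.maxHeartbeats 400000
set_option maxHeartbeats 1000000

open HahnSeries AlgebraicCurve ModularCurve IntermediateField TensorProduct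
open Fermat.Agent.TW.B5.Iface Fermat.Agent.RED.Interface4 Fermat.Agent.T1.HubInst98
open Fermat.Agent.Jac Fermat.Agent.T1.RedIface75 Fermat.Agent.T1.PtLine75
open Fermat.Agent.T1.Dict59 Fermat.Agent.T1.Dict67
open Fermat.Agent.T1B.Local66.LocalBase Fermat.Agent.T1B.Local66.Union
open Fermat.Agent.T1B.Bridge54.IpInst Fermat.Agent.T1B.Bridge54.IpRes
open Fermat.Agent.T1B.Bridge54.JTop
open Fermat.Agent.T1B.Bridge39

noncomputable section

namespace Fermat.Agent.MAZ.JAll39

variable {p : ℕ} [Fact p.Prime] {K : IntermediateField ℚ Qbar} {N : ℕ} [NeZero N]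
  {B0 B1 B01 : Type} [CommRing B0] [CommRing B1] [CommRing B01]
  [Algebra (Wb p K) B0] [Algebra (Wb p K) B1] [Algebra (Wb p K) B01] [Algebra B0 B01]
  [Algebra B1 B01] [IsScalarTower (Wb p K) B0 B01] [IsScalarTower (Wb p K) B1 B01]
  {c0 : TwoChart (Wb p K) B0 B1 B01}
  (Fam : ChartIsoFamilyN (padicPlace p) N K c0) [FiniteDimensional ℚ K]

/-- **On `J₀(N)(ℚ̄)[p]` the global bridge is `jTop`.** -/
theorem jAll_eq_jTop (S : TorsSec N K p)
    (x : ↥(Pic0.torsion Qbar (modularFunctionFieldBar N) p)) :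
    jAll Fam (x : JZero N) = jTop Fam S x := by
  haveI := S.fin₀
  haveI := S.normal₀
  have h := jAll_mk Fam S.L₀ S.le₀ (S.s x) (S.rat_s x)
  rw [S.mk_s x] at h
  rw [h]
  rfl

/-- `jTop` does not depend on the torsion section. -/
theorem jTop_eq_jTop (S S' : TorsSec N K p)
    (x : ↥(Pic0.torsion Qbar (modularFunctionFieldBar N) p)) :
    jTop Fam S x = jTop Fam S' x := by
  rw [← jAll_eq_jTop Fam S x, ← jAll_eq_jTop Fam S' x]

end Fermat.Agent.MAZ.JAll39
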